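import Mathlib

/-!
# S22, route A: the algebra of `N`-periodic holomorphic functions bounded at `i∞`, and the
algebra of power series with coefficients in finitely generated `ℤ`-modules.
-/

set_option autoImplicit false

noncomputable section

open UpperHalfPlane Function
open scoped Manifold

namespace Fermat.Agent.S22

/-- Holomorphic, `N`-periodic and bounded at `i∞`. -/
structure IsNice (N : ℕ) (F : ℍ → ℂ) : Prop where
  per : Periodic (F ∘ ofComplex) N
  holo : MDiff F
  bdd : IsBoundedAtImInfty F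

namespace IsNice

variable {N : ℕ} {F G : ℍ → ℂ}

theorem analyticAt [NeZero N] (hF : IsNice N F) : AnalyticAt ℂ (cuspFunction N F) 0 :=
  analyticAt_cuspFunction_zero (Nat.cast_pos.mpr (NeZero.pos N)) hF.per hF.holo hF.bdd

theorem add (hF : IsNice N F) (hG : IsNice N G) : IsNice N (F + G) :=
  ⟨hF.per.add hG.per, hF.holo.add hG.holo, hF.bdd.add hG.bdd⟩

theorem mul (hF : IsNice N F) (hG : IsNice N G) : IsNice N (F * G) :=
  ⟨hF.per.mul hG.per, hF.holo.mul hG.holo, hF.bdd.mul hG.bdd⟩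

theorem const (c : ℂ) : IsNice N (fun _ => c) :=
  ⟨fun _ => rfl, mdifferentiable_const, Filter.const_boundedAtFilter _ c⟩

theorem one : IsNice N (1 : ℍ → ℂ) := const 1

theorem zero : IsNice N (0 : ℍ → ℂ) := const 0

theorem smul (c : ℂ) (hF : IsNice N F) : IsNice N (c • F) := by
  have : c • F = (fun _ => c) * F := by
    ext z; simp
  rw [this]
  exact (const c).mul hF

theorem neg (hF : IsNice N F) : IsNice N (-F) := by
  have : -F = (-1 : ℂ) • F := by simp
  rw [this]
  exact hF.smul _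

theorem sub (hF : IsNice N F) (hG : IsNice N G) : IsNice N (F - G) := by
  rw [sub_eq_add_neg]
  exact hF.add hG.neg

theorem prod {ι : Type*} (s : Finset ι) {F : ι → ℍ → ℂ} (hF : ∀ i ∈ s, IsNice N (F i)) :
    IsNice N (∏ i ∈ s, F i) := by
  classical
  induction s using Finset.induction_on with
  | empty => simpa using (one : IsNice N 1)
  | insert a s ha ih =>
    rw [Finset.prod_insert ha]
    exact (hF a (Finset.mem_insert_self a s)).mul
      (ih fun i hi => hF i (Finset.mem_insert_of_mem hi))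

/-- A function with period `1` that is holomorphic and bounded at `i∞` is nice for every `N`. -/
theorem of_one (N : ℕ) (hper : Periodic (F ∘ ofComplex) (1 : ℝ)) (hholo : MDiff F)
    (hbdd : IsBoundedAtImInfty F) : IsNice N F := by
  refine ⟨?_, hholo, hbdd⟩
  have h1 : Periodic (F ∘ ofComplex) ((1 : ℝ) : ℂ) := hper
  have := h1.nat_mul N
  simpa using this

end IsNice

/-- The algebra of nice functions. -/
def niceAlg (N : ℕ) : Subalgebra ℂ (ℍ → ℂ) where
  carrier := {F | IsNice N F}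
  mul_mem' := fun hF hG => hF.mul hG
  add_mem' := fun hF hG => hF.add hG
  algebraMap_mem' := fun c => IsNice.const c

theorem mem_niceAlg {N : ℕ} {F : ℍ → ℂ} : F ∈ niceAlg N ↔ IsNice N F := Iff.rfl

/-- `q`-expansion at period `N` as an algebra homomorphism on nice functions. -/
def qExpHom (N : ℕ) [NeZero N] : niceAlg N →ₐ[ℂ] PowerSeries ℂ where
  toFun F := qExpansion N F.1
  map_one' := qExpansion_one N
  map_mul' F G := qExpansion_mul (IsNice.analyticAt F.2) (IsNice.analyticAt G.2)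
  map_zero' := qExpansion_zero N
  map_add' F G := qExpansion_add (IsNice.analyticAt F.2) (IsNice.analyticAt G.2)
  commutes' c := by
    have h1 : ((algebraMap ℂ (niceAlg N) c : niceAlg N) : ℍ → ℂ) = c • (1 : ℍ → ℂ) := by
      ext z; simp
    change qExpansion N ((algebraMap ℂ (niceAlg N) c : niceAlg N) : ℍ → ℂ) = _
    rw [h1, qExpansion_smul (IsNice.analyticAt IsNice.one), qExpansion_one,
      Algebra.algebraMap_eq_smul_one]

@[simp] theorem qExpHom_apply (N : ℕ) [NeZero N] (F : niceAlg N) :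
    qExpHom N F = qExpansion N (F : ℍ → ℂ) := rfl

/-! ### Power series with coefficients in a `ℤ`-submodule of `ℂ` -/

/-- All coefficients of `p` lie in `M`. -/
def CoeffsIn (M : Submodule ℤ ℂ) (p : PowerSeries ℂ) : Prop :=
  ∀ n : ℕ, PowerSeries.coeff n p ∈ M

/-- The coefficients of `p` lie in some finitely generated `ℤ`-submodule of `ℂ`. -/
def FGC (p : PowerSeries ℂ) : Prop :=
  ∃ M : Submodule ℤ ℂ, M.FG ∧ CoeffsIn M p

/-- Integer coefficients. -/
def IntC (p : PowerSeries ℂ) : Prop :=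
  ∀ n : ℕ, ∃ t : ℤ, PowerSeries.coeff n p = (t : ℂ)

theorem CoeffsIn.mono {M M' : Submodule ℤ ℂ} (h : M ≤ M') {p : PowerSeries ℂ}
    (hp : CoeffsIn M p) : CoeffsIn M' p := fun n => h (hp n)

theorem CoeffsIn.mul_intC {M : Submodule ℤ ℂ} {p q : PowerSeries ℂ} (hp : CoeffsIn M p)
    (hq : IntC q) : CoeffsIn M (p * q) := by
  intro n
  rw [PowerSeries.coeff_mul]
  refine Submodule.sum_mem _ fun x _ => ?_
  obtain ⟨t, ht⟩ := hq x.2
  rw [ht, mul_comm, ← zsmul_eq_mul]
  exact Submodule.smul_mem _ _ (hp x.1)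

theorem IntC.one : IntC 1 := by
  intro n
  rw [PowerSeries.coeff_one]
  split_ifs
  · exact ⟨1, by simp⟩
  · exact ⟨0, by simp⟩

theorem IntC.mul {p q : PowerSeries ℂ} (hp : IntC p) (hq : IntC q) : IntC (p * q) := by
  intro n
  rw [PowerSeries.coeff_mul]
  choose a ha using hp
  choose b hb using hq
  refine ⟨∑ x ∈ Finset.HasAntidiagonal.antidiagonal n, a x.1 * b x.2, ?_⟩
  push_cast
  exact Finset.sum_congr rfl fun x _ => by rw [ha, hb]

theorem IntC.pow {p : PowerSeries ℂ} (hp : IntC p) (n : ℕ) : IntC (p ^ n) := by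
  induction n with
  | zero => simpa using IntC.one
  | succ n ih => rw [pow_succ]; exact ih.mul hp

theorem IntC.neg {p : PowerSeries ℂ} (hp : IntC p) : IntC (-p) := by
  intro n
  obtain ⟨t, ht⟩ := hp n
  exact ⟨-t, by simp [ht]⟩

theorem FGC.zero : FGC 0 := ⟨⊥, Submodule.fg_bot, fun n => by simp⟩

theorem FGC.add {p q : PowerSeries ℂ} (hp : FGC p) (hq : FGC q) : FGC (p + q) := by
  obtain ⟨M, hM, hpM⟩ := hp
  obtain ⟨M', hM', hqM⟩ := hq
  refine ⟨M ⊔ M', hM.sup hM', fun n => ?_⟩
  rw [map_add]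
  exact Submodule.add_mem _ (le_sup_left (a := M) (hpM n)) (le_sup_right (b := M') (hqM n))

theorem FGC.sum {ι : Type*} (s : Finset ι) {p : ι → PowerSeries ℂ} (hp : ∀ i ∈ s, FGC (p i)) :
    FGC (∑ i ∈ s, p i) := by
  classical
  induction s using Finset.induction_on with
  | empty => simpa using FGC.zero
  | insert a s ha ih =>
    rw [Finset.sum_insert ha]
    exact (hp a (Finset.mem_insert_self a s)).add
      (ih fun i hi => hp i (Finset.mem_insert_of_mem hi))

theorem FGC.mul_intC {p q : PowerSeries ℂ} (hp : FGC p) (hq : IntC q) : FGC (p * q) := by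
  obtain ⟨M, hM, hpM⟩ := hp
  exact ⟨M, hM, hpM.mul_intC hq⟩

theorem FGC.smul (c : ℂ) {p : PowerSeries ℂ} (hp : FGC p) : FGC (c • p) := by
  obtain ⟨M, hM, hpM⟩ := hp
  refine ⟨Submodule.map (LinearMap.mulLeft ℤ c) M, hM.map _, fun n => ?_⟩
  rw [PowerSeries.coeff_smul]
  exact Submodule.mem_map_of_mem (f := LinearMap.mulLeft ℤ c) (hpM n)

theorem IntC.fgc {p : PowerSeries ℂ} (hp : IntC p) : FGC p := by
  refine ⟨Submodule.span ℤ {1}, Submodule.fg_span_singleton _, fun n => ?_⟩
  obtain ⟨t, ht⟩ := hp n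
  rw [ht, Submodule.mem_span_singleton]
  exact ⟨t, by simp⟩

/-! ### Unit-like power series -/

/-- `p = c * X ^ s * Y` with `c ≠ 0` and `Y` a power series with coefficients in the ring `R`
and constant coefficient `1`. -/
def UnitLike (R : Subalgebra ℤ ℂ) (p : PowerSeries ℂ) : Prop :=
  ∃ (c : ℂ) (s : ℕ) (Y : PowerSeries ℂ), c ≠ 0 ∧ (∀ n : ℕ, PowerSeries.coeff n Y ∈ R) ∧
    PowerSeries.constantCoeff Y = 1 ∧ p = PowerSeries.C c * PowerSeries.X ^ s * Y

theorem UnitLike.one (R : Subalgebra ℤ ℂ) : UnitLike R 1 := by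
  refine ⟨1, 0, 1, one_ne_zero, fun n => ?_, by simp, by simp⟩
  rw [PowerSeries.coeff_one]
  split_ifs
  · exact R.one_mem
  · exact R.zero_mem

theorem UnitLike.mul {R : Subalgebra ℤ ℂ} {p q : PowerSeries ℂ} (hp : UnitLike R p)
    (hq : UnitLike R q) : UnitLike R (p * q) := by
  obtain ⟨c, s, Y, hc, hY, hY0, rfl⟩ := hp
  obtain ⟨c', s', Y', hc', hY', hY0', rfl⟩ := hq
  refine ⟨c * c', s + s', Y * Y', mul_ne_zero hc hc', fun n => ?_, by simp [hY0, hY0'], ?_⟩
  · rw [PowerSeries.coeff_mul]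
    exact R.sum_mem fun x _ => R.mul_mem (hY _) (hY' _)
  · rw [map_mul, pow_add]
    ring

theorem UnitLike.prod {R : Subalgebra ℤ ℂ} {ι : Type*} (s : Finset ι) {p : ι → PowerSeries ℂ}
    (hp : ∀ i ∈ s, UnitLike R (p i)) : UnitLike R (∏ i ∈ s, p i) := by
  classical
  induction s using Finset.induction_on with
  | empty => simpa using UnitLike.one R
  | insert a s ha ih =>
    rw [Finset.prod_insert ha]
    exact (hp a (Finset.mem_insert_self a s)).mul
      (ih fun i hi => hp i (Finset.mem_insert_of_mem hi))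

/-- Division by a unit-like series preserves "coefficients in a finitely generated module". -/
theorem FGC.of_mul_unitLike {R : Subalgebra ℤ ℂ} (hR : (Subalgebra.toSubmodule R).FG)
    {u p v : PowerSeries ℂ} (hp : UnitLike R p) (h : u * p = v) (hv : FGC v) : FGC u := by
  obtain ⟨c, s, Y, hc, hY, hY0, rfl⟩ := hp
  obtain ⟨M, hM, hvM⟩ := hv
  -- invert `Y` inside `R⟦X⟧`
  let Y₀ : PowerSeries R := PowerSeries.mk fun n => ⟨PowerSeries.coeff n Y, hY n⟩
  have hYmap : PowerSeries.map (algebraMap R ℂ) Y₀ = Y := by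
    ext n
    simp [Y₀]
  have hY₀ : IsUnit Y₀ := by
    rw [PowerSeries.isUnit_iff_constantCoeff]
    have : PowerSeries.constantCoeff Y₀ = 1 := by
      apply Subtype.ext
      rw [← PowerSeries.coeff_zero_eq_constantCoeff_apply]
      simp only [Y₀, PowerSeries.coeff_mk]
      rw [PowerSeries.coeff_zero_eq_constantCoeff_apply, hY0]
      rfl
    rw [this]
    exact isUnit_one
  obtain ⟨Z₀, hZ₀⟩ := hY₀.exists_right_inv
  set Z : PowerSeries ℂ := PowerSeries.map (algebraMap R ℂ) Z₀ with hZdef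
  have hYZ : Y * Z = 1 := by
    rw [← hYmap, hZdef, ← map_mul, hZ₀, map_one]
  have hZ : ∀ n, PowerSeries.coeff n Z ∈ R := fun n => by
    rw [hZdef, PowerSeries.coeff_map]
    exact (PowerSeries.coeff n Z₀).2
  have key : u * PowerSeries.X ^ s = PowerSeries.C c⁻¹ * (v * Z) := by
    have h1 : v * Z = PowerSeries.C c * (u * PowerSeries.X ^ s) := by
      rw [← h]
      calc u * (PowerSeries.C c * PowerSeries.X ^ s * Y) * Z
          = PowerSeries.C c * (u * PowerSeries.X ^ s) * (Y * Z) := by ring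
        _ = PowerSeries.C c * (u * PowerSeries.X ^ s) := by rw [hYZ, mul_one]
    rw [h1, ← mul_assoc, ← map_mul, inv_mul_cancel₀ hc, map_one, one_mul]
  refine ⟨Submodule.map (LinearMap.mulLeft ℤ c⁻¹) (M * Subalgebra.toSubmodule R),
    (hM.mul hR).map _, fun n => ?_⟩
  have h2 : PowerSeries.coeff n u = c⁻¹ * PowerSeries.coeff (n + s) (v * Z) := by
    rw [← PowerSeries.coeff_mul_X_pow u s n, key, PowerSeries.coeff_C_mul]
  rw [h2]
  refine Submodule.mem_map_of_mem (f := LinearMap.mulLeft ℤ c⁻¹) ?_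
  rw [PowerSeries.coeff_mul]
  exact Submodule.sum_mem _ fun x _ => Submodule.mul_mem_mul (hvM x.1) (hZ x.2)

end Fermat.Agent.S22
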