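import Mathlib
import Fermat.Prelude.Def_CuspForm_HeckeAlgebra
import Fermat.Prelude.Thm_CongruenceSubgroup_one_mem_strictPeriods_Gamma0
import Fermat.Prelude.Thm_ModularFormClass_qCoeff_heckeT
import Fermat.Prelude.Thm_ModularFormClass_qCoeff_heckeU
import Fermat.Prelude.Thm_ModularForm_sturm_bound_Gamma0

/-!
# S22: algebraic finish

If every cusp form of weight `k ≥ 1` on `Γ₀(N)` has all its `q`-coefficients in some finitely
generated additive subgroup of `ℂ` (depending on the form), then the Hecke algebra is a finite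
`ℤ`-module.
-/

set_option autoImplicit false

noncomputable section

open UpperHalfPlane ModularFormClass

namespace Fermat.Agent.S22

local notation "Γ₀(" N ")" => CongruenceSubgroup.Gamma0 N

theorem one_mem_strictPeriods (N : ℕ) :
    (1 : ℝ) ∈ (Subgroup.map (Matrix.SpecialLinearGroup.mapGL ℝ) Γ₀(N)).strictPeriods :=
  CongruenceSubgroup.one_mem_strictPeriods_Gamma0 N

/-- The `n`-th `q`-expansion coefficient, as a linear functional on cusp forms. -/
def coeffFun (N : ℕ) (k : ℤ) (n : ℕ) : CuspForm Γ₀(N) k →ₗ[ℂ] ℂ where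
  toFun f := qCoeff f n
  map_add' f g := by
    simp only [qCoeff, FunLike.coe_add]
    rw [ModularForm.qExpansion_add one_pos (one_mem_strictPeriods N) f g, map_add]
  map_smul' c f := by
    have h1 : ⇑(c • f) = c • ⇑f := rfl
    simp only [qCoeff, h1]
    rw [ModularForm.qExpansion_smul one_pos (one_mem_strictPeriods N) c f]
    simp

@[simp] theorem coeffFun_apply (N : ℕ) (k : ℤ) (n : ℕ) (f : CuspForm Γ₀(N) k) :
    coeffFun N k n f = qCoeff f n := rfl

/-- The interface property: every cusp form has all its `q`-coefficients in a finitely generated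
additive subgroup of `ℂ`. -/
def HasFGCoeffs (N : ℕ) (k : ℤ) : Prop :=
  ∀ f : CuspForm Γ₀(N) k, ∃ O : Submodule ℤ ℂ, O.FG ∧ ∀ n : ℕ, qCoeff f n ∈ O

/-- The `ℤ`-span of the coefficient functionals. -/
def coeffSpan (N : ℕ) (k : ℤ) : Submodule ℤ (CuspForm Γ₀(N) k →ₗ[ℂ] ℂ) :=
  Submodule.span ℤ (Set.range (coeffFun N k))

theorem coeffFun_mem_coeffSpan (N : ℕ) (k : ℤ) (n : ℕ) : coeffFun N k n ∈ coeffSpan N k :=
  Submodule.subset_span ⟨n, rfl⟩

theorem coeffFun_comp_heckeT {N : ℕ} {k : ℤ} (hk : 1 ≤ k) {ℓ : ℕ} (hℓ : ℓ.Prime)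
    (hℓN : ¬ ℓ ∣ N) (n : ℕ) :
    (coeffFun N k n) ∘ₗ (CuspForm.heckeTLin k hℓ hℓN) =
      coeffFun N k (n * ℓ) +
        (if ℓ ∣ n then ((ℓ : ℤ) ^ (k - 1).toNat) • coeffFun N k (n / ℓ) else 0) := by
  ext f
  have hpow : ((ℓ : ℂ)) ^ (k - 1) = (((ℓ : ℤ) ^ (k - 1).toNat : ℤ) : ℂ) := by
    have h0 : (0 : ℤ) ≤ k - 1 := by omega
    conv_lhs => rw [← Int.toNat_of_nonneg h0]
    rw [zpow_natCast]
    push_cast
    rfl
  simp only [LinearMap.comp_apply, LinearMap.add_apply, coeffFun_apply]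
  rw [CuspForm.coe_heckeTLin_apply, ModularFormClass.qCoeff_heckeT f (one_mem_strictPeriods N)
    hℓ.ne_zero n, ModularForm.coeffHeckeT_apply]
  split_ifs with h
  · rw [hpow]
    simp [zsmul_eq_mul]
  · simp

theorem coeffFun_comp_heckeU {N : ℕ} [NeZero N] {k : ℤ} {q : ℕ} (hq : q.Prime)
    (hqN : q ∣ N) (n : ℕ) :
    (coeffFun N k n) ∘ₗ (CuspForm.heckeULin k hqN) = coeffFun N k (n * q) := by
  ext f
  simp only [LinearMap.comp_apply, coeffFun_apply]
  rw [CuspForm.coe_heckeULin_apply, ModularFormClass.qCoeff_heckeU f (one_mem_strictPeriods N)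
    hq.ne_zero n, ModularForm.coeffHeckeU_apply]

/-- Precomposition with an element of the Hecke algebra preserves the span of the coefficient
functionals. -/
theorem comp_mem_coeffSpan {N : ℕ} [NeZero N] {k : ℤ} (hk : 1 ≤ k) {S : Set ℕ}
    {t : Module.End ℂ (CuspForm Γ₀(N) k)} (ht : t ∈ CuspForm.heckeAlgebra N k S)
    {φ : CuspForm Γ₀(N) k →ₗ[ℂ] ℂ} (hφ : φ ∈ coeffSpan N k) : φ ∘ₗ t ∈ coeffSpan N k := by
  induction ht using Algebra.adjoin_induction generalizing φ with
  | mem x hx =>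
    -- generators
    induction hφ using Submodule.span_induction with
    | mem ψ hψ =>
      obtain ⟨n, rfl⟩ := hψ
      rcases hx with ⟨ℓ, hℓ, hℓN, -, rfl⟩ | ⟨q, hqN, hq, -, rfl⟩
      · rw [coeffFun_comp_heckeT hk hℓ hℓN n]
        refine Submodule.add_mem _ (coeffFun_mem_coeffSpan N k _) ?_
        split_ifs
        · exact Submodule.smul_mem _ _ (coeffFun_mem_coeffSpan N k _)
        · exact Submodule.zero_mem _
      · rw [coeffFun_comp_heckeU hq hqN n]
        exact coeffFun_mem_coeffSpan N k _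
    | zero => simp
    | add ψ₁ ψ₂ _ _ h₁ h₂ =>
      rw [LinearMap.add_comp]
      exact Submodule.add_mem _ h₁ h₂
    | smul c ψ _ h =>
      have : (c • ψ) ∘ₗ x = c • (ψ ∘ₗ x) := by
        ext f; simp
      rw [this]
      exact Submodule.smul_mem _ _ h
  | algebraMap r =>
    have : φ ∘ₗ (algebraMap ℤ (Module.End ℂ (CuspForm Γ₀(N) k)) r) = r • φ := by
      ext f
      simp
    rw [this]
    exact Submodule.smul_mem _ _ hφ
  | add x y _ _ hx hy =>
    have : φ ∘ₗ (x + y) = φ ∘ₗ x + φ ∘ₗ y := LinearMap.comp_add _ _ _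
    rw [this]
    exact Submodule.add_mem _ (hx hφ) (hy hφ)
  | mul x y _ _ hx hy =>
    have : φ ∘ₗ (x * y) = (φ ∘ₗ x) ∘ₗ y := rfl
    rw [this]
    exact hy (hx hφ)

/-- Evaluating an element of the span of coefficient functionals at `f` lands in any additive
subgroup containing all the coefficients of `f`. -/
theorem apply_mem_of_mem_coeffSpan {N : ℕ} {k : ℤ} {φ : CuspForm Γ₀(N) k →ₗ[ℂ] ℂ}
    (hφ : φ ∈ coeffSpan N k) (f : CuspForm Γ₀(N) k) (O : Submodule ℤ ℂ)
    (hO : ∀ n : ℕ, qCoeff f n ∈ O) : φ f ∈ O := by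
  induction hφ using Submodule.span_induction with
  | mem ψ hψ =>
    obtain ⟨n, rfl⟩ := hψ
    exact hO n
  | zero => simp
  | add ψ₁ ψ₂ _ _ h₁ h₂ => exact Submodule.add_mem _ h₁ h₂
  | smul c ψ _ h => exact Submodule.smul_mem _ c h

/-- The Sturm bound for `Γ₀(N)` in weight `k`. -/
def sturmB (N : ℕ) (k : ℤ) : ℕ := (k * (Γ₀(N)).index).toNat / 12

/-- A cusp form whose first `sturmB + 1` coefficients vanish is zero. -/
theorem eq_zero_of_qCoeff_eq_zero {N : ℕ} [NeZero N] {k : ℤ} (f : CuspForm Γ₀(N) k)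
    (h : ∀ n ≤ sturmB N k, qCoeff f n = 0) : f = 0 := by
  have hmf : (ModularFormClass.modularForm f : ModularForm Γ₀(N) k) = 0 := by
    refine ModularForm.sturm_bound_Gamma0 N _ fun n hn ↦ ?_
    simpa [qCoeff] using h n hn
  have hcoe : (⇑f : ℍ → ℂ) = 0 := by
    have := congrArg (fun F : ModularForm Γ₀(N) k ↦ (⇑F : ℍ → ℂ)) hmf
    simpa using this
  exact DFunLike.coe_injective (hcoe.trans (FunLike.coe_zero (F := CuspForm Γ₀(N) k)).symm)

theorem finiteDimensional_cuspForm (N : ℕ) [NeZero N] (k : ℤ) :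
    FiniteDimensional ℂ (CuspForm Γ₀(N) k) := by
  let T : CuspForm Γ₀(N) k →ₗ[ℂ] (Fin (sturmB N k + 1) → ℂ) :=
    LinearMap.pi fun i => coeffFun N k i
  have hT : Function.Injective T := by
    refine (injective_iff_map_eq_zero _).mpr fun f hf ↦ ?_
    refine eq_zero_of_qCoeff_eq_zero f fun n hn ↦ ?_
    have := congrFun hf ⟨n, Nat.lt_succ_of_le hn⟩
    simpa [T] using this
  exact FiniteDimensional.of_injective T hT

/-- **Algebraic finish.** If every cusp form of weight `k ≥ 1` on `Γ₀(N)` has all its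
`q`-coefficients in a finitely generated additive subgroup of `ℂ`, then the Hecke algebra is a
finite `ℤ`-module. -/
theorem moduleFinite_heckeAlgebra_of_hasFGCoeffs (N : ℕ) [NeZero N] (k : ℤ) (hk : 1 ≤ k)
    (S : Set ℕ) (h : HasFGCoeffs N k) : Module.Finite ℤ (CuspForm.heckeAlgebra N k S) := by
  classical
  have := finiteDimensional_cuspForm N k
  let b := Module.finBasis ℂ (CuspForm Γ₀(N) k)
  choose O hOfg hO using h
  let Ψ : (CuspForm.heckeAlgebra N k S) →ₗ[ℤ]
      (Fin (sturmB N k + 1) → Fin (Module.finrank ℂ (CuspForm Γ₀(N) k)) → ℂ) :=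
    { toFun := fun t n i => coeffFun N k n ((t : Module.End ℂ (CuspForm Γ₀(N) k)) (b i))
      map_add' := fun s t => by
        funext n i
        simp only [Subalgebra.coe_add, LinearMap.add_apply, map_add, Pi.add_apply]
      map_smul' := fun c t => by
        funext n i
        simp only [SetLike.val_smul, LinearMap.smul_apply, map_zsmul, Pi.smul_apply,
          eq_intCast, Int.cast_id] }
  have hinj : Function.Injective Ψ := by
    refine (injective_iff_map_eq_zero _).mpr fun t ht ↦ ?_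
    apply Subtype.ext
    refine b.ext fun i => ?_
    have : (t : Module.End ℂ (CuspForm Γ₀(N) k)) (b i) = 0 := by
      refine eq_zero_of_qCoeff_eq_zero _ fun n hn ↦ ?_
      have := congrFun (congrFun ht ⟨n, Nat.lt_succ_of_le hn⟩) i
      simpa [Ψ] using this
    simpa using this
  let Q : Submodule ℤ
      (Fin (sturmB N k + 1) → Fin (Module.finrank ℂ (CuspForm Γ₀(N) k)) → ℂ) :=
    Submodule.pi Set.univ fun _ => Submodule.pi Set.univ fun i => O (b i)
  have hQ : Q.FG := Submodule.fg_pi fun _ => Submodule.fg_pi fun i => hOfg (b i)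
  have hle : (⊤ : Submodule ℤ (CuspForm.heckeAlgebra N k S)).map Ψ ≤ Q := by
    rintro _ ⟨t, -, rfl⟩
    intro n _ i _
    have hmem : coeffFun N k n ∘ₗ (t : Module.End ℂ (CuspForm Γ₀(N) k)) ∈ coeffSpan N k :=
      comp_mem_coeffSpan hk t.2 (coeffFun_mem_coeffSpan N k n)
    exact apply_mem_of_mem_coeffSpan hmem (b i) (O (b i)) (hO (b i))
  exact Module.finite_def.mpr (Submodule.fg_of_fg_map_injective Ψ hinj (hQ.of_le hle))

/-- In weight `k ≤ 0` there are no nonzero cusp forms on `Γ₀(N)`. -/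
theorem cuspForm_eq_zero_of_nonpos {N : ℕ} [NeZero N] {k : ℤ} (hk : k ≤ 0)
    (f : CuspForm Γ₀(N) k) : f = 0 := by
  refine eq_zero_of_qCoeff_eq_zero f fun n hn ↦ ?_
  have hB : sturmB N k = 0 := by
    have h0 : k * ((Γ₀(N)).index : ℤ) ≤ 0 :=
      mul_nonpos_of_nonpos_of_nonneg hk (Int.natCast_nonneg _)
    simp [sturmB, Int.toNat_of_nonpos h0]
  have hn0 : n = 0 := by omega
  subst hn0
  exact CuspFormClass.qExpansion_coeff_zero f one_pos (one_mem_strictPeriods N)

/-- The Hecke algebra in weight `k ≤ 0` is trivially a finite `ℤ`-module. -/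
theorem moduleFinite_heckeAlgebra_of_nonpos (N : ℕ) [NeZero N] (k : ℤ) (hk : k ≤ 0)
    (S : Set ℕ) : Module.Finite ℤ (CuspForm.heckeAlgebra N k S) := by
  have : Subsingleton (CuspForm Γ₀(N) k) :=
    ⟨fun f g => (cuspForm_eq_zero_of_nonpos hk f).trans (cuspForm_eq_zero_of_nonpos hk g).symm⟩
  have : Subsingleton (Module.End ℂ (CuspForm Γ₀(N) k)) :=
    ⟨fun s t => LinearMap.ext fun f => Subsingleton.elim _ _⟩
  have : Subsingleton (CuspForm.heckeAlgebra N k S) :=
    ⟨fun s t => Subtype.ext (Subsingleton.elim _ _)⟩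
  infer_instance

end Fermat.Agent.S22

end
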