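import Mathlib
import Fermat.Prelude.Thm_UpperHalfPlane_qExpansion_coeff_nat_mul
import Fermat.Agent.S23.H26.SymmForms
import Fermat.Agent.S23.H76.LevelOne
import Fermat.Agent.S22.QAlg
import Fermat.Agent.S22.Finish

/-!
# S22, route A: assembly

Given a "separating" modular form `g` on `Γ₀(N)` with integral `q`-expansion such that the
differences `g - g ∣ γ` (`γ ∉ Γ₀(N)`) have unit-like `q`-expansions at period `N`, every cusp
form on `Γ₀(N)` has its `q`-coefficients in a finitely generated `ℤ`-module.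
-/

set_option autoImplicit false

noncomputable section

open UpperHalfPlane Function ModularFormClass
open scoped Manifold MatrixGroups ModularForm
open Fermat.Agent.S23.H26 Fermat.Agent.S23.H76

namespace Fermat.Agent.S22

local notation "Γ₀(" N ")" => CongruenceSubgroup.Gamma0 N

/-- A modular form for a group with strict period `1` is nice at every period `N`. -/
theorem isNice_of_modularForm (N : ℕ) {Γ : Subgroup (GL (Fin 2) ℝ)} {F : Type*} [FunLike F ℍ ℂ]
    {k : ℤ} [ModularFormClass F Γ k] (f : F) (hΓ : (1 : ℝ) ∈ Γ.strictPeriods) :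
    IsNice N (f : ℍ → ℂ) := by
  have : Fact (IsCusp OnePoint.infty Γ) := ⟨Γ.isCusp_of_mem_strictPeriods one_pos hΓ⟩
  exact IsNice.of_one N (SlashInvariantFormClass.periodic_comp_ofComplex f hΓ)
    (ModularFormClass.holo f) (ModularFormClass.bdd_at_infty f)

/-- Period-`N` coefficients of a `1`-periodic nice function. -/
theorem coeff_qExpansion_nat (N : ℕ) [NeZero N] {F : ℍ → ℂ} (hF : IsNice 1 F) (n : ℕ) :
    (qExpansion N F).coeff n = if N ∣ n then (qExpansion 1 F).coeff (n / N) else 0 := by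
  have hper : Periodic (F ∘ ofComplex) ((1 : ℝ) : ℂ) := by simpa using hF.per
  have h := UpperHalfPlane.qExpansion_coeff_nat_mul one_pos hper hF.holo hF.bdd
    (NeZero.pos N) n
  rwa [mul_one] at h

theorem intC_qExpansion_nat (N : ℕ) [NeZero N] {F : ℍ → ℂ} (hF : IsNice 1 F)
    (h : IntC (qExpansion 1 F)) : IntC (qExpansion N F) := by
  intro n
  rw [coeff_qExpansion_nat N hF]
  split_ifs
  · exact h _
  · exact ⟨0, by simp⟩

/-- Level one forms have period-`N` `q`-expansions with coefficients in a finitely generated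
`ℤ`-module. -/
theorem fgc_qExpansion_levelOne (N : ℕ) [NeZero N] (k : ℤ) (h : ModularForm 𝒮ℒ k) :
    FGC (qExpansion N h) := by
  have hnice : ∀ (M : ℕ) (h : ModularForm 𝒮ℒ k), IsNice M (h : ℍ → ℂ) := fun M h =>
    isNice_of_modularForm M h _root_.one_mem_strictPeriods_SL
  have hmem : h ∈ Submodule.span ℂ {h : ModularForm 𝒮ℒ k | IntQ h} := by
    rw [span_intQ_eq_top]; trivial
  induction hmem using Submodule.span_induction with
  | mem x hx => exact (intC_qExpansion_nat N (hnice 1 x) hx).fgc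
  | zero =>
    rw [show ((0 : ModularForm 𝒮ℒ k) : ℍ → ℂ) = 0 from rfl, qExpansion_zero]
    exact FGC.zero
  | add x y _ _ hx hy =>
    rw [show ((x + y : ModularForm 𝒮ℒ k) : ℍ → ℂ) = x + y from rfl,
      qExpansion_add (hnice N x).analyticAt (hnice N y).analyticAt]
    exact hx.add hy
  | smul c x _ hx =>
    rw [show ((c • x : ModularForm 𝒮ℒ k) : ℍ → ℂ) = c • (x : ℍ → ℂ) from rfl,
      qExpansion_smul (hnice N x).analyticAt]
    exact hx.smul c

section Assembly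

variable (N : ℕ) [NeZero N]

local notation "𝒢" => (Subgroup.map (Matrix.SpecialLinearGroup.mapGL ℝ) Γ₀(N))
local notation "𝒬" => 𝒮ℒ ⧸ Subgroup.subgroupOf 𝒢 𝒮ℒ

omit [NeZero N] in
/-- Every nontrivial coset translate of `g` is a slash by an element of `SL(2,ℤ)` outside
`Γ₀(N)`. -/
theorem exists_quotientFunc_eq {G : Type*} [FunLike G ℍ ℂ] {w : ℤ}
    [SlashInvariantFormClass G 𝒢 w] (g : G) (l : 𝒬) (hl : l ≠ ((1 : 𝒮ℒ) : 𝒬)) :
    ∃ γ : SL(2, ℤ), γ ∉ Γ₀(N) ∧
      SlashInvariantForm.quotientFunc g l =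
        (g : ℍ → ℂ) ∣[w] (Matrix.SpecialLinearGroup.mapGL ℝ γ) := by
  induction l using Quotient.inductionOn with
  | h r =>
    obtain ⟨r, hr⟩ := r
    obtain ⟨δ, rfl⟩ := hr
    refine ⟨δ⁻¹, fun hmem => hl ?_, ?_⟩
    · have hδ : δ ∈ Γ₀(N) := by simpa using inv_mem hmem
      change ((⟨Matrix.SpecialLinearGroup.mapGL ℝ δ, _⟩ : 𝒮ℒ) : 𝒬) = ((1 : 𝒮ℒ) : 𝒬)
      rw [QuotientGroup.eq]
      simp only [mul_one, Subgroup.mem_subgroupOf]
      exact inv_mem (Subgroup.mem_map_of_mem _ hδ)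
    · rw [SlashInvariantForm.quotientFunc_mk, map_inv]

variable {k w : ℤ}

/-- The main reduction of route A. -/
theorem fgc_qExpansion_of_sep {G : Type*} [FunLike G ℍ ℂ] [ModularFormClass G 𝒢 w] (g : G)
    (R : Subalgebra ℤ ℂ) (hR : (Subalgebra.toSubmodule R).FG)
    (hgint : IntC (qExpansion N (g : ℍ → ℂ)))
    (hsep : ∀ γ : SL(2, ℤ), γ ∉ Γ₀(N) →
      IsNice N ((g : ℍ → ℂ) - (g : ℍ → ℂ) ∣[w] (Matrix.SpecialLinearGroup.mapGL ℝ γ)) ∧
      UnitLike R (qExpansion N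
        ((g : ℍ → ℂ) - (g : ℍ → ℂ) ∣[w] (Matrix.SpecialLinearGroup.mapGL ℝ γ))))
    (f : CuspForm Γ₀(N) k) : FGC (qExpansion N (f : ℍ → ℂ)) := by
  classical
  have h1 : (1 : ℝ) ∈ (𝒢).strictPeriods := one_mem_strictPeriods N
  have hf : IsNice N (f : ℍ → ℂ) := isNice_of_modularForm N f h1
  have hg : IsNice N (g : ℍ → ℂ) := isNice_of_modularForm N g h1
  have hL : ∀ j : ℕ, IsNice N (lagrangeFun 𝒮ℒ f g j) := fun j =>
    isNice_of_modularForm N (lagrangeForm 𝒮ℒ f g j) _root_.one_mem_strictPeriods_SL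
  -- the Lagrange denominator
  have hfac : ∀ l ∈ (letI := Fintype.ofFinite 𝒬; (Finset.univ : Finset 𝒬).erase ((1 : 𝒮ℒ) : 𝒬)),
      IsNice N ((g : ℍ → ℂ) - SlashInvariantForm.quotientFunc g l) ∧
      UnitLike R (qExpansion N ((g : ℍ → ℂ) - SlashInvariantForm.quotientFunc g l)) := by
    intro l hl
    obtain ⟨γ, hγ, hq⟩ := exists_quotientFunc_eq N g l (Finset.ne_of_mem_erase hl)
    rw [hq]
    exact hsep γ hγ
  have hDdef : lagrangeDenom 𝒮ℒ g =
      (letI := Fintype.ofFinite 𝒬;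
        ∏ l ∈ (Finset.univ : Finset 𝒬).erase ((1 : 𝒮ℒ) : 𝒬),
          ((g : ℍ → ℂ) - SlashInvariantForm.quotientFunc g l)) := by
    unfold lagrangeDenom
    congr!
  have hD : IsNice N (lagrangeDenom 𝒮ℒ g) := by
    rw [hDdef]
    exact IsNice.prod _ fun l hl => (hfac l hl).1
  have hDunit : UnitLike R (qExpansion N (lagrangeDenom 𝒮ℒ g)) := by
    rw [hDdef, UpperHalfPlane.qExpansion_prod _ fun l hl => (hfac l hl).1.analyticAt]
    exact UnitLike.prod _ fun l hl => (hfac l hl).2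
  -- the Lagrange identity in the algebra of nice functions
  set μ := Nat.card 𝒬 with hμ
  have hEq : (⟨f, hf⟩ : niceAlg N) * ⟨lagrangeDenom 𝒮ℒ g, hD⟩ =
      ∑ j ∈ Finset.range μ, (-1 : niceAlg N) ^ j * ⟨lagrangeFun 𝒮ℒ f g j, hL j⟩ *
        (⟨g, hg⟩ : niceAlg N) ^ (μ - 1 - j) := by
    apply Subtype.ext
    funext z
    simp only [Subalgebra.coe_mul, AddSubmonoidClass.coe_finsetSum, Subalgebra.coe_pow,
      Subalgebra.coe_neg, Subalgebra.coe_one, Pi.mul_apply, Finset.sum_apply, Pi.pow_apply,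
      Pi.neg_apply, Pi.one_apply]
    exact mul_lagrangeDenom_apply 𝒮ℒ f g z
  have hEq' := congrArg (qExpHom N) hEq
  simp only [map_mul, map_sum, map_pow, map_neg, map_one, qExpHom_apply] at hEq'
  refine FGC.of_mul_unitLike hR hDunit hEq' (FGC.sum _ fun j _ => ?_)
  have hLj : FGC (qExpansion N (lagrangeFun 𝒮ℒ f g j)) :=
    fgc_qExpansion_levelOne N _ (lagrangeForm 𝒮ℒ f g j)
  have : (-1 : PowerSeries ℂ) ^ j * qExpansion N (lagrangeFun 𝒮ℒ f g j) *
      qExpansion N (g : ℍ → ℂ) ^ (μ - 1 - j) =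
      qExpansion N (lagrangeFun 𝒮ℒ f g j) *
        ((-1 : PowerSeries ℂ) ^ j * qExpansion N (g : ℍ → ℂ) ^ (μ - 1 - j)) := by ring
  rw [this]
  exact hLj.mul_intC ((IntC.pow (IntC.neg IntC.one) j).mul (hgint.pow _))

/-- Route A: from a separating form to `HasFGCoeffs`. -/
theorem hasFGCoeffs_of_sep {G : Type*} [FunLike G ℍ ℂ] [ModularFormClass G 𝒢 w] (g : G)
    (R : Subalgebra ℤ ℂ) (hR : (Subalgebra.toSubmodule R).FG)
    (hgint : IntC (qExpansion N (g : ℍ → ℂ)))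
    (hsep : ∀ γ : SL(2, ℤ), γ ∉ Γ₀(N) →
      IsNice N ((g : ℍ → ℂ) - (g : ℍ → ℂ) ∣[w] (Matrix.SpecialLinearGroup.mapGL ℝ γ)) ∧
      UnitLike R (qExpansion N
        ((g : ℍ → ℂ) - (g : ℍ → ℂ) ∣[w] (Matrix.SpecialLinearGroup.mapGL ℝ γ))))
    (k : ℤ) : HasFGCoeffs N k := by
  intro f
  obtain ⟨O, hO, hc⟩ := fgc_qExpansion_of_sep N g R hR hgint hsep f
  refine ⟨O, hO, fun n => ?_⟩
  have hf1 : IsNice 1 (f : ℍ → ℂ) := isNice_of_modularForm 1 f (one_mem_strictPeriods N)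
  have h := coeff_qExpansion_nat N hf1 (N * n)
  rw [if_pos (dvd_mul_right N n), Nat.mul_div_cancel_left n (NeZero.pos N)] at h
  have h2 : qCoeff (f : ℍ → ℂ) n = (qExpansion N (f : ℍ → ℂ)).coeff (N * n) := by
    rw [h]; rfl
  rw [h2]
  exact hc _

end Assembly

end Fermat.Agent.S22
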